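import Mathlib

/-!
# Inflation is injective on `H²` when `H¹` of the kernel vanishes (cochain level, `Rep` form)
-/

set_option autoImplicit false

namespace Fermat.Agent.S55.L.Inv481

open groupCohomology

variable {G G' : Type} [Group G] [Group G']

/-- Abstract inflation injectivity in degree 2: let `f : G' ↠ G`, `ι : A ↪ B` equivariant with
`ι A = B^{ker f}` and `H¹(ker f, B) = 0`.  If the inflation of a 2-cocycle `c` is a
coboundary, then `c` is a coboundary. -/
theorem mem_coboundaries₂_of_inflation (A : Rep ℤ G) (B : Rep ℤ G')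
    (f : G' →* G) (hf : Function.Surjective f) (ι : A →+ B) (hι : Function.Injective ι)
    (hcomm : ∀ (g : G') (x : A), ι (A.ρ (f g) x) = B.ρ g (ι x))
    (hfix : ∀ y : B, (∀ s : G', f s = 1 → B.ρ s y = y) → ∃ x : A, ι x = y)
    (hH1 : ∀ z : G' → B, (∀ s t : G', f s = 1 → f t = 1 → z (s * t) = B.ρ s (z t) + z s) →
      ∃ m : B, ∀ s : G', f s = 1 → B.ρ s m - m = z s)
    (c : cocycles₂ A)
    (hb : (fun p : G' × G' => ι (c (f p.1, f p.2))) ∈ coboundaries₂ B) :
    ⇑c ∈ coboundaries₂ A := by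
  obtain ⟨h, hh⟩ := hb
  have hh : ∀ g k : G', B.ρ g (h k) - h (g * k) + h g = ι (c (f g, f k)) := by
    intro g k
    have := congr_fun hh (g, k)
    rw [d₁₂_hom_apply] at this
    exact this
  set a : B := ι (c (1, 1)) with ha
  have hc1 : ∀ σ : G, c (1, σ) = c (1, 1) := fun σ => cocycles₂_map_one_fst c σ
  have hc2 : ∀ σ : G, c (σ, 1) = A.ρ σ (c (1, 1)) := fun σ => cocycles₂_map_one_snd c σ
  have hsa : ∀ s : G', f s = 1 → B.ρ s a = a := by
    intro s hs
    rw [ha, ← hcomm, hs, map_one]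
    rfl
  -- `h - a` restricted to the kernel is a 1-cocycle
  obtain ⟨m, hm⟩ := hH1 (fun s => h s - a) (by
    intro s t hs ht
    have := hh s t
    rw [hs, ht, ← ha] at this
    have h1 : h (s * t) = B.ρ s (h t) + h s - a := by
      rw [← this]; abel
    simp only [h1, map_sub, hsa s hs]
    abel)
  -- modified cochain
  set h₁ : G' → B := fun g => h g - (B.ρ g m - m) with hh₁
  have hd : ∀ g k : G', B.ρ g (h₁ k) - h₁ (g * k) + h₁ g = ι (c (f g, f k)) := by
    intro g k
    rw [← hh g k]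
    simp only [hh₁, map_sub, map_mul, Module.End.mul_apply]
    abel
  have hS : ∀ s : G', f s = 1 → h₁ s = a := by
    intro s hs
    simp only [hh₁]
    rw [hm s hs]
    abel
  -- right invariance
  have hr : ∀ (g s : G'), f s = 1 → h₁ (g * s) = h₁ g := by
    intro g s hs
    have := hd g s
    rw [hs, hc2, hcomm, ← ha, hS s hs] at this
    have h3 : h₁ (g * s) = h₁ g + (B.ρ g a - (B.ρ g a - h₁ (g * s) + h₁ g)) := by abel
    rw [h3, this]; abel
  -- left invariance / fixedness
  have hl : ∀ (g s : G'), f s = 1 → B.ρ s (h₁ g) = h₁ g := by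
    intro g s hs
    have := hd s g
    rw [hs, hc1, ← ha, hS s hs] at this
    have h5 : B.ρ s (h₁ g) = h₁ (s * g) := by
      have h6 : B.ρ s (h₁ g) = h₁ (s * g) + ((B.ρ s (h₁ g) - h₁ (s * g) + a) - a) := by abel
      rw [h6, this]; abel
    rw [h5]
    have : s * g = g * (g⁻¹ * s * g) := by group
    rw [this]
    apply hr
    simp [hs]
  -- descend
  have hex : ∀ σ : G, ∃ x : A, ∀ g : G', f g = σ → ι x = h₁ g := by
    intro σ
    obtain ⟨g₀, hg₀⟩ := hf σ
    obtain ⟨x, hx⟩ := hfix (h₁ g₀) (fun s hs => hl g₀ s hs)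
    refine ⟨x, fun g hg => ?_⟩
    rw [hx]
    have : g = g₀ * (g₀⁻¹ * g) := by group
    rw [this]
    symm
    apply hr
    simp [hg, hg₀]
  choose hbar hhbar using hex
  refine ⟨hbar, ?_⟩
  funext ⟨σ, τ⟩
  rw [d₁₂_hom_apply]
  obtain ⟨g, rfl⟩ := hf σ
  obtain ⟨k, rfl⟩ := hf τ
  apply hι
  simp only
  rw [map_add, map_sub, hcomm, hhbar (f k) k rfl, hhbar (f g) g rfl,
    hhbar (f g * f k) (g * k) (map_mul f g k)]
  exact hd g k

end Fermat.Agent.S55.L.Inv481
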