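import Fermat.Agent.S55.L.Inv481.Pair
import Fermat.Agent.S55.L.Inv481.InflInjCore

/-!
# Inflation, restriction, transport and base change as pairs; injectivity of inflation
-/

set_option autoImplicit false

namespace Fermat.Agent.S55.L.Inv481

open groupCohomology CategoryTheory

section Infl

variable (K L M : Type) [Field K] [Field L] [Field M] [Algebra K L] [Algebra K M] [Algebra L M]
  [IsScalarTower K L M] [Normal K L]

/-- The inflation pair `(K, L) → (K, M)` of a tower `K ⊆ L ⊆ M`. -/
noncomputable def inflPair : GalPair K L K M where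
  ι := algebraMap L M
  f := AlgEquiv.restrictNormalHom L
  comm g x := AlgEquiv.restrictNormal_commutes g L x

variable {K L M}

theorem isInflation_iff_isPull (c : cocycles₂ (unitsRep K L)) (c' : cocycles₂ (unitsRep K M)) :
    IsInflation c c' ↔ (inflPair K L M).IsPull c c' := Iff.rfl

/-- an element of `Gal(M/K)` restricting to the identity on `L` comes from `Gal(M/L)`. -/
noncomputable def liftOfRestrictEqOne (s : M ≃ₐ[K] M)
    (hs : AlgEquiv.restrictNormalHom L s = 1) : M ≃ₐ[L] M :=
  { s.toRingEquiv with
    commutes' := fun x => by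
      have := AlgEquiv.restrictNormal_commutes s L x
      have h1 : s.restrictNormal L = 1 := hs
      rw [h1] at this
      exact this.symm }

theorem liftOfRestrictEqOne_apply (s : M ≃ₐ[K] M)
    (hs : AlgEquiv.restrictNormalHom L s = 1) (x : M) : liftOfRestrictEqOne s hs x = s x := rfl

theorem restrictNormalHom_restrictScalars (σ : M ≃ₐ[L] M) :
    AlgEquiv.restrictNormalHom L (σ.restrictScalars K) = 1 := by
  ext x
  apply (algebraMap L M).injective
  have := AlgEquiv.restrictNormal_commutes (σ.restrictScalars K) L x
  change algebraMap L M ((σ.restrictScalars K).restrictNormal L x) = _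
  rw [this]
  simp

variable (K L M) in
/-- **Inflation is injective on `H²`** (Hilbert 90). -/
theorem inflPair_pull_injective [FiniteDimensional K M] [IsGalois K M] :
    Function.Injective (inflPair K L M).pull := by
  have : FiniteDimensional L M := FiniteDimensional.right K L M
  have : IsGalois L M := IsGalois.tower_top_of_isGalois K L M
  rw [injective_iff_map_eq_zero]
  intro x hx
  obtain ⟨c, rfl⟩ := exists_cls_eq x
  rw [GalPair.pull_cls] at hx
  have hx' : (H2π (unitsRep K M)).hom ((inflPair K L M).pullCocycle c) = 0 := hx
  rw [H2π_eq_zero_iff] at hx'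
  change (H2π (unitsRep K L)).hom c = 0
  rw [H2π_eq_zero_iff]
  refine mem_coboundaries₂_of_inflation (unitsRep K L) (unitsRep K M)
    (AlgEquiv.restrictNormalHom L) (AlgEquiv.restrictNormalHom_surjective M)
    (inflPair K L M).unitsMap ?_ ?_ ?_ ?_ c ?_
  · -- injective
    intro a b hab
    apply Additive.toMul.injective
    apply Units.ext
    have := congrArg (fun z => ((Additive.toMul z : Mˣ) : M)) hab
    exact (algebraMap L M).injective this
  · -- equivariance
    intro g v
    apply Additive.toMul.injective
    apply Units.ext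
    exact (inflPair K L M).comm g _
  · -- fixed points
    intro y hy
    have hmem : ((Additive.toMul y : Mˣ) : M) ∈ (⊥ : IntermediateField L M) := by
      rw [IsGalois.mem_bot_iff_fixed]
      intro σ
      have := hy (σ.restrictScalars K) (restrictNormalHom_restrictScalars σ)
      exact congrArg (fun z => ((Additive.toMul z : Mˣ) : M)) this
    rw [IntermediateField.mem_bot] at hmem
    obtain ⟨a, ha⟩ := hmem
    have ha0 : a ≠ 0 := by
      rintro rfl
      rw [map_zero] at ha
      exact (Additive.toMul y : Mˣ).ne_zero ha.symm
    refine ⟨Additive.ofMul (Units.mk0 a ha0), ?_⟩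
    apply Additive.toMul.injective
    apply Units.ext
    exact ha
  · -- Hilbert 90
    intro z hz
    obtain ⟨m, hm⟩ := isMulCoboundary₁_of_isMulCocycle₁_of_aut_to_units
      (K := L) (L := M) (fun σ => Additive.toMul (z (σ.restrictScalars K))) (by
        intro σ τ
        have := hz (σ.restrictScalars K) (τ.restrictScalars K)
          (restrictNormalHom_restrictScalars σ) (restrictNormalHom_restrictScalars τ)
        have h2 := congrArg Additive.toMul this
        exact h2)
    refine ⟨Additive.ofMul m, fun s hs => ?_⟩
    have := hm (liftOfRestrictEqOne s hs)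
    have hrs : (liftOfRestrictEqOne s hs).restrictScalars K = s := by
      ext x; rfl
    simp only [hrs] at this
    apply Additive.toMul.injective
    refine Eq.trans ?_ this
    apply Units.ext
    rfl
  · exact hx'

end Infl

end Fermat.Agent.S55.L.Inv481

namespace Fermat.Agent.S55.L.Inv481

open groupCohomology CategoryTheory

section Res

variable (K K' L : Type) [Field K] [Field K'] [Field L] [Algebra K K'] [Algebra K L]
  [Algebra K' L] [IsScalarTower K K' L]

/-- restriction of scalars on Galois groups, as a group homomorphism -/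
noncomputable def restrictScalarsHom : (L ≃ₐ[K'] L) →* (L ≃ₐ[K] L) :=
  MonoidHom.mk' (fun τ => τ.restrictScalars K) (fun _ _ => rfl)

@[simp] theorem restrictScalarsHom_apply (g : L ≃ₐ[K'] L) (x : L) :
    restrictScalarsHom K K' L g x = g x := rfl

/-- The restriction pair `(K, L) → (K', L)` of a tower `K ⊆ K' ⊆ L`. -/
noncomputable def resPair : GalPair K L K' L where
  ι := RingHom.id L
  f := restrictScalarsHom K K' L
  comm _ _ := rfl

variable {K K' L}

theorem isRestriction_iff_isPull (c : cocycles₂ (unitsRep K L)) (c' : cocycles₂ (unitsRep K' L)) :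
    IsRestriction c c' ↔ (resPair K K' L).IsPull c c' := by
  constructor
  · intro h g k
    rw [h g k]
    rfl
  · intro h g k
    rw [h g k]
    rfl

end Res

section Transport

variable {K L K' L' : Type} [Field K] [Field L] [Algebra K L] [Field K'] [Field L']
  [Algebra K' L']

/-- The transport pair `(K, L) → (K', L')` of compatible isomorphisms. -/
noncomputable def transPair (e : L ≃+* L') (c : (L ≃ₐ[K] L) ≃* (L' ≃ₐ[K'] L'))
    (hc : ∀ (g : L ≃ₐ[K] L) (x : L), c g (e x) = e (g x)) : GalPair K L K' L' where
  ι := e
  f := c.symm.toMonoidHom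
  comm g x := by
    have := hc (c.symm g) x
    rw [MulEquiv.apply_symm_apply] at this
    exact this.symm

theorem isTransport_iff_isPull (e : L ≃+* L') (c : (L ≃ₐ[K] L) ≃* (L' ≃ₐ[K'] L'))
    (hc : ∀ (g : L ≃ₐ[K] L) (x : L), c g (e x) = e (g x))
    (f : cocycles₂ (unitsRep K L)) (f' : cocycles₂ (unitsRep K' L')) :
    IsTransport e c f f' ↔ (transPair e c hc).IsPull f f' := by
  constructor
  · intro h g k
    have := h (c.symm g) (c.symm k)
    rw [MulEquiv.apply_symm_apply, MulEquiv.apply_symm_apply] at this
    rw [this]
    rfl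
  · intro h g k
    have := h (c g) (c k)
    rw [this]
    simp only [transPair, MulEquiv.coe_toMonoidHom, MulEquiv.symm_apply_apply]
    rfl

end Transport

section BaseChange

variable (K K' E E' : Type) [Field K] [Field K'] [Field E] [Field E'] [Algebra K K']
  [Algebra K E] [Algebra K' E'] [Algebra E E'] [Algebra K E'] [IsScalarTower K K' E']
  [IsScalarTower K E E'] [Normal K E]

/-- The base change pair `(K, E) → (K', E')` for `K ⊆ K'`, `E ⊆ E'`, `K' ⊆ E'`. -/
noncomputable def bcPair : GalPair K E K' E' where
  ι := algebraMap E E'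
  f := (AlgEquiv.restrictNormalHom E).comp (restrictScalarsHom K K' E')
  comm g x := AlgEquiv.restrictNormal_commutes (g.restrictScalars K) E x

variable {K K' E E'}

/-- `c'` (on `Gal(E'/K')`) is the base change of `c` (on `Gal(E/K)`):
`c' (g, h) = c (g|_E, h|_E)`. -/
def IsBaseChange (c : cocycles₂ (unitsRep K E)) (c' : cocycles₂ (unitsRep K' E')) : Prop :=
  ∀ g h : E' ≃ₐ[K'] E',
    (c' : (E' ≃ₐ[K'] E') × (E' ≃ₐ[K'] E') → unitsRep K' E') (g, h) =
      Additive.ofMul (Units.map (algebraMap E E' : E →* E')
        (Additive.toMul ((c : (E ≃ₐ[K] E) × (E ≃ₐ[K] E) → unitsRep K E)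
          (AlgEquiv.restrictNormalHom E (g.restrictScalars K),
            AlgEquiv.restrictNormalHom E (h.restrictScalars K)))))

theorem isBaseChange_iff_isPull (c : cocycles₂ (unitsRep K E)) (c' : cocycles₂ (unitsRep K' E')) :
    IsBaseChange c c' ↔ (bcPair K K' E E').IsPull c c' := Iff.rfl

end BaseChange

end Fermat.Agent.S55.L.Inv481
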