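import Fermat.Agent.S55.L.Inv481.Datum

/-!
# S55 / layer L / leaf L-C2 (helper481): the invariant maps (`InvSpec`)

From the unramified invariant maps (`UnrInvSpec`), `H²(L/K)` cyclic of order `[L : K]`
(`H2CyclicSpec`), existence and cyclicity of unramified extensions and two facts on unramified
subextensions (`UnrNestSpec`, `UnrBCSpec`) we construct the invariant maps of all finite Galois
extensions of local fields with all their compatibilities.
-/

set_option autoImplicit false
set_option linter.style.haveILetI false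

namespace Fermat.Agent.S55.L.Inv481

open groupCohomology

section Main

variable (U : UnrInvFamily) (hEx : UnramifiedExistsSpec) (hCyc : UnramifiedCyclicSpec)
  (hH2 : H2CyclicSpec) (hNest : UnrNestSpec) (hBC : UnrBCSpec)

/-- the chosen good datum of `(K, L)` -/
noncomputable def chosenDatum (K L : Type) [Field K] [Field L] [Algebra K L]
    [FiniteDimensional K L] [IsGalois K L] [IsLocalFld K] : {D : Datum K L // D.Good} :=
  Classical.choice (let ⟨D, hD⟩ := exists_good hEx hCyc hH2 K L; ⟨⟨D, hD⟩⟩)

/-- **The invariant map** of a finite Galois extension of local fields. -/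
noncomputable def invMap (K L : Type) [Field K] [Field L] [Algebra K L]
    [FiniteDimensional K L] [IsGalois K L] [IsLocalFld K] :
    H2 (unitsRep K L) →+ AddCircle (1 : ℚ) :=
  (U.inv K (chosenDatum hEx hCyc hH2 K L).1.E).comp
    ((chosenDatum hEx hCyc hH2 K L).1.phi (chosenDatum hEx hCyc hH2 K L).2)

include hNest in
/-- the invariant can be computed from any datum -/
theorem invMap_eq (K L : Type) [Field K] [Field L] [Algebra K L]
    [FiniteDimensional K L] [IsGalois K L] [IsLocalFld K]
    {M E : Type} [Field M] [Field E] [Algebra K M] [Algebra K E]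
    [FiniteDimensional K M] [IsGalois K M] [FiniteDimensional K E] [IsGalois K E]
    (hu : IsUnramifiedExt K E) (a : L →ₐ[K] M) (b : E →ₐ[K] M)
    (x : H2 (unitsRep K L)) (y : H2 (unitsRep K E))
    (h : (embPair b).pull y = (embPair a).pull x) :
    invMap U hEx hCyc hH2 K L x = U.inv K E y :=
  unr_inv_eq U hEx hCyc hNest (chosenDatum hEx hCyc hH2 K L).1.unr hu
    (chosenDatum hEx hCyc hH2 K L).1.jL (chosenDatum hEx hCyc hH2 K L).1.jE a b x _ y
    (Datum.phi_spec _ _ x) h

theorem invMap_injective (K L : Type) [Field K] [Field L] [Algebra K L]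
    [FiniteDimensional K L] [IsGalois K L] [IsLocalFld K] :
    Function.Injective (invMap U hEx hCyc hH2 K L) := by
  intro x x' h
  exact Datum.phi_injective _ _ (U.inv_injective K _ (chosenDatum hEx hCyc hH2 K L).1.unr h)

include hNest in
theorem invMap_inflation (K L L' : Type) [Field K] [Field L] [Field L'] [Algebra K L]
    [Algebra K L'] [Algebra L L'] [IsScalarTower K L L'] [FiniteDimensional K L]
    [FiniteDimensional K L'] [IsGalois K L] [IsGalois K L'] [IsLocalFld K]
    (f : cocycles₂ (unitsRep K L)) (f' : cocycles₂ (unitsRep K L')) (h : IsInflation f f') :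
    invMap U hEx hCyc hH2 K L' (cls f') = invMap U hEx hCyc hH2 K L (cls f) := by
  have hx' : (inflPair K L L').pull (cls f) = cls f' :=
    ((isInflation_iff_isPull f f').mp h).pull_cls
  symm
  rw [invMap_eq U hEx hCyc hH2 hNest K L (chosenDatum hEx hCyc hH2 K L').1.unr
    ((chosenDatum hEx hCyc hH2 K L').1.jL.comp (IsScalarTower.toAlgHom K L L'))
    (chosenDatum hEx hCyc hH2 K L').1.jE (cls f)
    ((chosenDatum hEx hCyc hH2 K L').1.phi (chosenDatum hEx hCyc hH2 K L').2 (cls f')) ?_]
  · rfl
  · rw [Datum.phi_spec, embPair_pull_comp, ← inflPair_eq_embPair, hx']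

include hNest in
theorem invMap_unramified (K L : Type) [Field K] [Field L] [Algebra K L]
    [FiniteDimensional K L] [IsGalois K L] [IsLocalFld K] (hu : IsUnramifiedExt K L)
    (A : ValuationSubring K) (hA : IsLocalRingOfIntegers A)
    (φ : L ≃ₐ[K] L) (hφ : IsFrobeniusElt K L φ)
    (π : Kˣ) (hπ : IsUniformizer A (π : K))
    (f : cocycles₂ (unitsRep K L)) (hf : IsCyclicCocycle φ π f) :
    invMap U hEx hCyc hH2 K L (cls f) = (((Module.finrank K L : ℚ)⁻¹ : ℚ) : AddCircle (1 : ℚ)) := by
  rw [invMap_eq U hEx hCyc hH2 hNest K L hu (AlgHom.id K L) (AlgHom.id K L) (cls f) (cls f) rfl]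
  exact U.inv_unramified K L hu A hA φ hφ π hπ f hf

include hNest hBC in
/-- restriction, computed on an arbitrary datum -/
theorem invMap_restriction_aux (K K' L : Type) [Field K] [Field K'] [Field L] [Algebra K K']
    [Algebra K L] [Algebra K' L] [IsScalarTower K K' L] [FiniteDimensional K L]
    [FiniteDimensional K' L] [IsGalois K L] [IsGalois K' L] [IsLocalFld K] [IsLocalFld K']
    {M E : Type} [Field M] [Field E] [Algebra K M] [Algebra K E]
    [FiniteDimensional K M] [IsGalois K M] [FiniteDimensional K E] [IsGalois K E]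
    (hu : IsUnramifiedExt K E) (a : L →ₐ[K] M) (b : E →ₐ[K] M)
    (x : H2 (unitsRep K L)) (y : H2 (unitsRep K E))
    (h : (embPair b).pull y = (embPair a).pull x) :
    invMap U hEx hCyc hH2 K' L ((resPair K K' L).pull x) =
      Module.finrank K K' • U.inv K E y := by
  letI aK'M : Algebra K' M := ((a : L →+* M).comp (algebraMap K' L)).toAlgebra
  haveI tKK'M : IsScalarTower K K' M := IsScalarTower.of_algebraMap_eq (fun r => by
    change algebraMap K M r = a (algebraMap K' L (algebraMap K K' r))
    rw [← IsScalarTower.algebraMap_apply K K' L, a.commutes])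
  haveI : FiniteDimensional K K' := FiniteDimensional.left K K' L
  haveI : FiniteDimensional K' M := FiniteDimensional.right K K' M
  haveI : IsGalois K' M := IsGalois.tower_top_of_isGalois K K' M
  -- the unramified extension `E'` of `K'` inside `M`
  obtain ⟨E', hu', hsub⟩ := hBC K K' M b.fieldRange (isUnramifiedExt_fieldRange b hu)
  haveI : IsGalois K' E' := (hCyc K' E' hu').1
  -- `E'` is an `E`-algebra
  let ιE : E →+* E' :=
    { toFun := fun z => ⟨b z, hsub _ ⟨z, rfl⟩⟩
      map_one' := Subtype.ext (map_one b)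
      map_mul' := fun _ _ => Subtype.ext (map_mul b _ _)
      map_zero' := Subtype.ext (map_zero b)
      map_add' := fun _ _ => Subtype.ext (map_add b _ _) }
  letI : Algebra E E' := ιE.toAlgebra
  haveI : IsScalarTower K E E' := IsScalarTower.of_algebraMap_eq (fun r => Subtype.ext (by
    change algebraMap K M r = b (algebraMap K E r)
    rw [b.commutes]))
  let a' : L →ₐ[K'] M := { (a : L →+* M) with commutes' := fun r => rfl }
  obtain ⟨c, rfl⟩ := exists_cls_eq y
  have hbc := U.inv_baseChange K K' E E' hu hu' c ((bcPair K K' E E').pullCocycle c)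
    ((isBaseChange_iff_isPull _ _).mpr (GalPair.isPull_pullCocycle _ _))
  rw [← GalPair.pull_cls] at hbc
  rw [← hbc]
  apply invMap_eq U hEx hCyc hH2 hNest K' L hu' a' E'.val
  rw [GalPair.pull_pull (bcPair K K' E E') (embPair E'.val)
      ((embPair b).comp (resPair K K' M)) (RingHom.ext fun _ => rfl),
    GalPair.pull_pull (resPair K K' L) (embPair a')
      ((embPair a).comp (resPair K K' M)) (RingHom.ext fun _ => rfl),
    GalPair.pull_comp, GalPair.pull_comp, h]

include hNest hBC in
theorem invMap_restriction (K K' L : Type) [Field K] [Field K'] [Field L] [Algebra K K']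
    [Algebra K L] [Algebra K' L] [IsScalarTower K K' L] [FiniteDimensional K L]
    [FiniteDimensional K' L] [IsGalois K L] [IsGalois K' L] [IsLocalFld K] [IsLocalFld K']
    (f : cocycles₂ (unitsRep K L)) (f' : cocycles₂ (unitsRep K' L)) (h : IsRestriction f f') :
    invMap U hEx hCyc hH2 K' L (cls f') =
      Module.finrank K K' • invMap U hEx hCyc hH2 K L (cls f) := by
  have hx' : (resPair K K' L).pull (cls f) = cls f' :=
    ((isRestriction_iff_isPull f f').mp h).pull_cls
  rw [← hx']
  exact invMap_restriction_aux U hEx hCyc hH2 hNest hBC K K' L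
    (chosenDatum hEx hCyc hH2 K L).1.unr (chosenDatum hEx hCyc hH2 K L).1.jL
    (chosenDatum hEx hCyc hH2 K L).1.jE (cls f) _ (Datum.phi_spec _ _ (cls f))

end Main

section BaseEquiv

variable {K L K' L' : Type} [Field K] [Field L] [Algebra K L] [Field K'] [Field L']
  [Algebra K' L'] [FiniteDimensional K L] [IsGalois K L] [FiniteDimensional K' L']
  [IsGalois K' L']

/-- compatible isomorphisms `L ≃ L'`, `Gal(L/K) ≃ Gal(L'/K')` induce an isomorphism `K ≃ K'` -/
theorem exists_baseEquiv (e : L ≃+* L') (c : (L ≃ₐ[K] L) ≃* (L' ≃ₐ[K'] L'))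
    (hc : ∀ (g : L ≃ₐ[K] L) (x : L), c g (e x) = e (g x)) :
    ∃ e₀ : K ≃+* K', ∀ a, algebraMap K' L' (e₀ a) = e (algebraMap K L a) := by
  have h1 : ∀ a : K, ∃ a' : K', algebraMap K' L' a' = e (algebraMap K L a) := by
    intro a
    have hmem : e (algebraMap K L a) ∈ (⊥ : IntermediateField K' L') := by
      rw [IsGalois.mem_bot_iff_fixed]
      intro σ
      have := hc (c.symm σ) (algebraMap K L a)
      rw [MulEquiv.apply_symm_apply, AlgEquiv.commutes] at this
      exact this
    exact IntermediateField.mem_bot.mp hmem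
  have h2 : ∀ a' : K', ∃ a : K, algebraMap K L a = e.symm (algebraMap K' L' a') := by
    intro a'
    have hmem : e.symm (algebraMap K' L' a') ∈ (⊥ : IntermediateField K L) := by
      rw [IsGalois.mem_bot_iff_fixed]
      intro σ
      apply e.injective
      rw [← hc σ, e.apply_symm_apply, AlgEquiv.commutes]
    exact IntermediateField.mem_bot.mp hmem
  choose φ hφ using h1
  choose ψ hψ using h2
  refine ⟨{ toFun := φ, invFun := ψ, left_inv := ?_, right_inv := ?_, map_mul' := ?_,
            map_add' := ?_ }, hφ⟩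
  · intro a
    apply (algebraMap K L).injective
    rw [hψ, hφ, e.symm_apply_apply]
  · intro a'
    apply (algebraMap K' L').injective
    rw [hφ, hψ, e.apply_symm_apply]
  · intro a b
    apply (algebraMap K' L').injective
    rw [hφ, map_mul, map_mul, map_mul, hφ, hφ]
  · intro a b
    apply (algebraMap K' L').injective
    rw [hφ, map_add, map_add, map_add, hφ, hφ]

end BaseEquiv

section MainTransport

variable (U : UnrInvFamily) (hEx : UnramifiedExistsSpec) (hCyc : UnramifiedCyclicSpec)
  (hH2 : H2CyclicSpec) (hNest : UnrNestSpec)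

include hNest in
/-- transport, computed on an arbitrary datum -/
theorem invMap_transport_aux (K L K' L' : Type) [Field K] [Field L] [Algebra K L] [Field K']
    [Field L'] [Algebra K' L'] [FiniteDimensional K L] [FiniteDimensional K' L'] [IsGalois K L]
    [IsGalois K' L'] [IsLocalFld K] [IsLocalFld K']
    (e : L ≃+* L') (c : (L ≃ₐ[K] L) ≃* (L' ≃ₐ[K'] L'))
    (hc : ∀ (g : L ≃ₐ[K] L) (x : L), c g (e x) = e (g x))
    {M E : Type} [Field M] [Field E] [Algebra K M] [Algebra K E]
    [FiniteDimensional K M] [IsGalois K M] [FiniteDimensional K E] [IsGalois K E]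
    (hu : IsUnramifiedExt K E) (a : L →ₐ[K] M) (b : E →ₐ[K] M)
    (x : H2 (unitsRep K L)) (y : H2 (unitsRep K E))
    (h : (embPair b).pull y = (embPair a).pull x) :
    invMap U hEx hCyc hH2 K' L' ((transPair e c hc).pull x) = U.inv K E y := by
  obtain ⟨e₀, he₀⟩ := exists_baseEquiv e c hc
  letI aM : Algebra K' M := ((algebraMap K M).comp (e₀.symm : K' →+* K)).toAlgebra
  letI aE : Algebra K' E := ((algebraMap K E).comp (e₀.symm : K' →+* K)).toAlgebra
  have hM : ∀ r, algebraMap K' M (e₀ r) = algebraMap K M r := fun r => by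
    change algebraMap K M (e₀.symm (e₀ r)) = _
    rw [e₀.symm_apply_apply]
  have hE : ∀ r, algebraMap K' E (e₀ r) = algebraMap K E r := fun r => by
    change algebraMap K E (e₀.symm (e₀ r)) = _
    rw [e₀.symm_apply_apply]
  haveI : IsGalois K' M := IsGalois.of_equiv_equiv (F := K) (E := M) (f := e₀)
    (g := RingEquiv.refl M) (by ext r; exact hM r)
  haveI : IsGalois K' E := IsGalois.of_equiv_equiv (F := K) (E := E) (f := e₀)
    (g := RingEquiv.refl E) (by ext r; exact hE r)
  haveI : FiniteDimensional K' M := Module.Finite.of_equiv_equiv e₀ (RingEquiv.refl M)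
    (by ext r; exact hM r)
  haveI : FiniteDimensional K' E := Module.Finite.of_equiv_equiv e₀ (RingEquiv.refl E)
    (by ext r; exact hE r)
  have hu' : IsUnramifiedExt K' E :=
    isUnramifiedExt_of_equiv e₀ (RingEquiv.refl E) (fun r => (hE r).symm) hu
  let a' : L' →ₐ[K'] M :=
    { (a : L →+* M).comp (e.symm : L' →+* L) with
      commutes' := fun r' => by
        obtain ⟨r, rfl⟩ := e₀.surjective r'
        change a (e.symm (algebraMap K' L' (e₀ r))) = algebraMap K' M (e₀ r)
        rw [he₀, e.symm_apply_apply, hM, a.commutes] }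
  let b' : E →ₐ[K'] M :=
    { (b : E →+* M) with
      commutes' := fun r' => by
        obtain ⟨r, rfl⟩ := e₀.surjective r'
        change b (algebraMap K' E (e₀ r)) = algebraMap K' M (e₀ r)
        rw [hE, hM, b.commutes] }
  obtain ⟨cy, rfl⟩ := exists_cls_eq y
  have ht := U.inv_transport K E K' E hu hu' (RingEquiv.refl E) (autCongrBase e₀ hE)
    (fun _ _ => rfl) cy ((basePair e₀ hE).pullCocycle cy)
    ((isTransport_iff_isPull _ _ _ _ _).mpr (GalPair.isPull_pullCocycle _ _))
  rw [← GalPair.pull_cls] at ht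
  rw [← ht]
  apply invMap_eq U hEx hCyc hH2 hNest K' L' hu' a' b'
  rw [GalPair.pull_pull (basePair e₀ hE) (embPair b')
      ((embPair b).comp (basePair e₀ hM)) (RingHom.ext fun _ => rfl),
    GalPair.pull_pull (transPair e c hc) (embPair a')
      ((embPair a).comp (basePair e₀ hM))
      (RingHom.ext fun z => congrArg a (e.symm_apply_apply z).symm),
    GalPair.pull_comp, GalPair.pull_comp, h]

include hNest in
theorem invMap_transport (K L K' L' : Type) [Field K] [Field L] [Algebra K L] [Field K']
    [Field L'] [Algebra K' L'] [FiniteDimensional K L] [FiniteDimensional K' L'] [IsGalois K L]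
    [IsGalois K' L'] [IsLocalFld K] [IsLocalFld K']
    (e : L ≃+* L') (c : (L ≃ₐ[K] L) ≃* (L' ≃ₐ[K'] L'))
    (hc : ∀ (g : L ≃ₐ[K] L) (x : L), c g (e x) = e (g x))
    (f : cocycles₂ (unitsRep K L)) (f' : cocycles₂ (unitsRep K' L'))
    (h : IsTransport e c f f') :
    invMap U hEx hCyc hH2 K' L' (cls f') = invMap U hEx hCyc hH2 K L (cls f) := by
  have hx' : (transPair e c hc).pull (cls f) = cls f' :=
    ((isTransport_iff_isPull e c hc f f').mp h).pull_cls
  rw [← hx']
  exact invMap_transport_aux U hEx hCyc hH2 hNest K L K' L' e c hc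
    (chosenDatum hEx hCyc hH2 K L).1.unr (chosenDatum hEx hCyc hH2 K L).1.jL
    (chosenDatum hEx hCyc hH2 K L).1.jE (cls f) _ (Datum.phi_spec _ _ (cls f))

end MainTransport

section Final

/-- **L-C2** (`InvSpec`): the invariant maps exist. -/
theorem inv_of' (hEx : UnramifiedExistsSpec) (hCyc : UnramifiedCyclicSpec)
    (hH2 : H2CyclicSpec) (hU : UnrInvSpec) (hNest : UnrNestSpec) (hBC : UnrBCSpec) :
    InvSpec := by
  obtain ⟨U⟩ := hU
  exact ⟨{
    inv := fun K L _ _ _ _ _ _ => invMap U hEx hCyc hH2 K L
    inv_injective := fun K L _ _ _ _ _ _ => invMap_injective U hEx hCyc hH2 K L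
    inv_inflation := fun K L L' _ _ _ _ _ _ _ _ _ _ _ _ f f' h =>
      invMap_inflation U hEx hCyc hH2 hNest K L L' f f' h
    inv_restriction := fun K K' L _ _ _ _ _ _ _ _ _ _ _ _ _ f f' h =>
      invMap_restriction U hEx hCyc hH2 hNest hBC K K' L f f' h
    inv_transport := fun K L K' L' _ _ _ _ _ _ _ _ _ _ _ _ e c hc f f' h =>
      invMap_transport U hEx hCyc hH2 hNest K L K' L' e c hc f f' h
    inv_unramified := fun K L _ _ _ _ _ _ hu A hA φ hφ π hπ f hf =>
      invMap_unramified U hEx hCyc hH2 hNest K L hu A hA φ hφ π hπ f hf }⟩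

/-- **L-C2** (`InvSpec`), with the signature announced in the interface (`FiniteExtSpec` is not
needed). -/
theorem inv_of (_hFE : FiniteExtSpec) (hEx : UnramifiedExistsSpec) (hCyc : UnramifiedCyclicSpec)
    (hH2 : H2CyclicSpec) (hU : UnrInvSpec) (hNest : UnrNestSpec) (hBC : UnrBCSpec) :
    InvSpec :=
  inv_of' hEx hCyc hH2 hU hNest hBC

end Final

end Fermat.Agent.S55.L.Inv481
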