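import Fermat.Agent.S55.L.Inv481.Towers

/-!
# S55 / layer L / leaf L-C2 (InvSpec), helper481: INPUT INTERFACE

`InvSpec` (frozen, `SpecInv.lean`) is proved in `Main.lean` from

* frozen specs: `FiniteExtSpec`, `UnramifiedExistsSpec`, `UnramifiedCyclicSpec`, `H2CyclicSpec`;
* `UnrInvSpec`   : the invariant maps on UNRAMIFIED extensions, with base change   (= leaf L-NR+BC);
* `UnrNestSpec`  : unramified subextensions of a finite extension are nested by degree;
* `UnrBCSpec`    : the compositum of an unramified extension with any finite extension is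
                   unramified over the latter (existence form).

All three are true statements of the theory of unramified extensions.  Mathematical content of
`UnrInvFamily.inv_baseChange`: for `E/K` unramified with Frobenius `φ` and uniformizer `π`, the
class `u = [cyclic cocycle (φ, π)]` has `inv = 1/n`; its pull-back to `Gal(E'/K')`
(`g ↦ g|_E`) is `(f n'/n) · e · u'` where `φ'|_E = φ^f`, `π = π'^e · unit`, `e f = [K':K]`,
so `inv' = e f / n = [K':K] · inv`.
-/

set_option autoImplicit false

namespace Fermat.Agent.S55.L.Inv481

open groupCohomology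

/-- Invariant maps on unramified extensions (values on ramified extensions are irrelevant). -/
structure UnrInvFamily where
  /-- the invariant map -/
  inv : ∀ (K E : Type) [Field K] [Field E] [Algebra K E] [FiniteDimensional K E] [IsGalois K E]
    [IsLocalFld K], H2 (unitsRep K E) →+ AddCircle (1 : ℚ)
  inv_injective : ∀ (K E : Type) [Field K] [Field E] [Algebra K E] [FiniteDimensional K E]
    [IsGalois K E] [IsLocalFld K], IsUnramifiedExt K E → Function.Injective (inv K E)
  /-- base change `K ⊆ K'`, `E ⊆ E'`: covers inflation (`K' = K`) and restriction (`E' = E`) -/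
  inv_baseChange : ∀ (K K' E E' : Type) [Field K] [Field K'] [Field E] [Field E']
    [Algebra K K'] [Algebra K E] [Algebra K' E'] [Algebra E E'] [Algebra K E']
    [IsScalarTower K K' E'] [IsScalarTower K E E'] [FiniteDimensional K K']
    [FiniteDimensional K E] [FiniteDimensional K' E'] [IsGalois K E] [IsGalois K' E']
    [IsLocalFld K] [IsLocalFld K'],
    IsUnramifiedExt K E → IsUnramifiedExt K' E' →
    ∀ (c : cocycles₂ (unitsRep K E)) (c' : cocycles₂ (unitsRep K' E')),
      IsBaseChange c c' → inv K' E' (cls c') = Module.finrank K K' • inv K E (cls c)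
  inv_transport : ∀ (K E K' E' : Type) [Field K] [Field E] [Algebra K E] [Field K'] [Field E']
    [Algebra K' E'] [FiniteDimensional K E] [FiniteDimensional K' E'] [IsGalois K E]
    [IsGalois K' E'] [IsLocalFld K] [IsLocalFld K'],
    IsUnramifiedExt K E → IsUnramifiedExt K' E' →
    ∀ (e : E ≃+* E') (c : (E ≃ₐ[K] E) ≃* (E' ≃ₐ[K'] E'))
    (_ : ∀ (g : E ≃ₐ[K] E) (x : E), c g (e x) = e (g x))
    (f : cocycles₂ (unitsRep K E)) (f' : cocycles₂ (unitsRep K' E')),
    IsTransport e c f f' → inv K' E' (cls f') = inv K E (cls f)
  inv_unramified : ∀ (K E : Type) [Field K] [Field E] [Algebra K E] [FiniteDimensional K E]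
    [IsGalois K E] [IsLocalFld K], IsUnramifiedExt K E →
    ∀ (A : ValuationSubring K), IsLocalRingOfIntegers A →
    ∀ (φ : E ≃ₐ[K] E), IsFrobeniusElt K E φ →
    ∀ (π : Kˣ), IsUniformizer A (π : K) →
    ∀ (f : cocycles₂ (unitsRep K E)), IsCyclicCocycle φ π f →
      inv K E (cls f) = (((Module.finrank K E : ℚ)⁻¹ : ℚ) : AddCircle (1 : ℚ))

/-- **L-NR+BC** existence of the unramified invariant maps with base change. -/
def UnrInvSpec : Prop := Nonempty UnrInvFamily

/-- Unramified subextensions of a finite extension are nested by divisibility of degrees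
(they are the subfields of the maximal unramified subextension, which is cyclic). -/
def UnrNestSpec : Prop :=
  ∀ (K M : Type) [Field K] [Field M] [Algebra K M] [FiniteDimensional K M] [IsLocalFld K]
    (E₁ E₂ : IntermediateField K M), IsUnramifiedExt K E₁ → IsUnramifiedExt K E₂ →
      Module.finrank K E₁ ∣ Module.finrank K E₂ → E₁ ≤ E₂

/-- If `E/K` is unramified and `K ⊆ K' ⊆ M`, `E ⊆ M`, then `E` is contained in a subextension
`E'` of `M/K'` which is unramified over `K'` (namely `E' = E K'`). -/
def UnrBCSpec : Prop :=
  ∀ (K K' M : Type) [Field K] [Field K'] [Field M] [Algebra K K'] [Algebra K M] [Algebra K' M]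
    [IsScalarTower K K' M] [FiniteDimensional K M] [IsLocalFld K] [IsLocalFld K']
    (E : IntermediateField K M), IsUnramifiedExt K E →
      ∃ E' : IntermediateField K' M, IsUnramifiedExt K' E' ∧ ∀ x : M, x ∈ E → x ∈ E'

end Fermat.Agent.S55.L.Inv481
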