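import Fermat.Agent.S55.L.Inv481.Emb

/-!
# S55 / layer L / leaf L-C2 (helper481): amalgamation of finite Galois extensions

Two finite Galois extensions `M₁`, `M₂` of `K` (characteristic zero) receiving a common field
`L` embed over `L` into a third finite Galois extension `M₃` of `K`.
-/

set_option autoImplicit false
set_option linter.style.haveILetI false

namespace Fermat.Agent.S55.L.Inv481

section CodRestrict

variable {K A M : Type} [Field K] [Field A] [Field M] [Algebra K A] [Algebra K M]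

/-- restriction of the codomain of an algebra homomorphism to an intermediate field -/
noncomputable def algHomCodRestrict (j : A →ₐ[K] M) (F : IntermediateField K M)
    (h : ∀ x, j x ∈ F) : A →ₐ[K] F where
  toFun x := ⟨j x, h x⟩
  map_one' := Subtype.ext (map_one j)
  map_mul' x y := Subtype.ext (map_mul j x y)
  map_zero' := Subtype.ext (map_zero j)
  map_add' x y := Subtype.ext (map_add j x y)
  commutes' r := Subtype.ext (j.commutes r)

@[simp] theorem algHomCodRestrict_coe (j : A →ₐ[K] M) (F : IntermediateField K M)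
    (h : ∀ x, j x ∈ F) (x : A) : ((algHomCodRestrict j F h x : F) : M) = j x := rfl

theorem val_comp_algHomCodRestrict (j : A →ₐ[K] M) (F : IntermediateField K M)
    (h : ∀ x, j x ∈ F) : F.val.comp (algHomCodRestrict j F h) = j := by
  ext x; rfl

/-- if the range of `g` is contained in the range of `k`, then `g` factors through `k` -/
theorem exists_factor {E₁ E₃ : Type} [Field E₁] [Field E₃] [Algebra K E₁] [Algebra K E₃]
    (k : E₃ →ₐ[K] M) (g : E₁ →ₐ[K] M) (h : g.fieldRange ≤ k.fieldRange) :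
    ∃ c : E₁ →ₐ[K] E₃, k.comp c = g := by
  have hmem : ∀ x, g x ∈ k.range := fun x => AlgHom.mem_fieldRange.mp (h ⟨x, rfl⟩)
  refine ⟨((AlgEquiv.ofInjectiveField k).symm : k.range →ₐ[K] E₃).comp
    (g.codRestrict k.range hmem), ?_⟩
  ext x
  have h1 : ∀ z : k.range, k ((AlgEquiv.ofInjectiveField k).symm z) = (z : M) := by
    intro z
    obtain ⟨w, hw⟩ := (AlgEquiv.ofInjectiveField k).surjective z
    rw [← hw, AlgEquiv.symm_apply_apply]
    rfl
  exact h1 _

end CodRestrict

section Amalgam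

/-- **Amalgamation** of two finite Galois extensions over a common subfield. -/
theorem exists_amalgam (K L M₁ M₂ : Type) [Field K] [Field L] [Field M₁] [Field M₂]
    [Algebra K L] [Algebra K M₁] [Algebra K M₂] [CharZero K]
    [FiniteDimensional K M₁] [IsGalois K M₁] [FiniteDimensional K M₂] [IsGalois K M₂]
    (i₁ : L →ₐ[K] M₁) (i₂ : L →ₐ[K] M₂) :
    ∃ (M₃ : Type) (_ : Field M₃) (_ : Algebra K M₃) (_ : FiniteDimensional K M₃)
      (_ : IsGalois K M₃) (j₁ : M₁ →ₐ[K] M₃) (j₂ : M₂ →ₐ[K] M₃), j₁.comp i₁ = j₂.comp i₂ := by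
  let j₁ : M₁ →ₐ[K] AlgebraicClosure M₁ := IsScalarTower.toAlgHom K M₁ (AlgebraicClosure M₁)
  letI aLM₂ : Algebra L M₂ := i₂.toRingHom.toAlgebra
  letI aLΩ : Algebra L (AlgebraicClosure M₁) := (j₁.comp i₁).toRingHom.toAlgebra
  haveI : IsScalarTower K L M₂ := IsScalarTower.of_algebraMap_eq (fun x => (i₂.commutes x).symm)
  haveI : IsScalarTower K L (AlgebraicClosure M₁) :=
    IsScalarTower.of_algebraMap_eq (fun x => ((j₁.comp i₁).commutes x).symm)
  haveI : FiniteDimensional L M₂ := FiniteDimensional.right K L M₂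
  haveI : Algebra.IsAlgebraic L M₂ := Algebra.IsAlgebraic.of_finite L M₂
  let j₂L : M₂ →ₐ[L] AlgebraicClosure M₁ := IsAlgClosed.lift
  let j₂ : M₂ →ₐ[K] AlgebraicClosure M₁ := j₂L.restrictScalars K
  have hcomm : j₁.comp i₁ = j₂.comp i₂ := by
    ext x
    exact (j₂L.commutes x).symm
  haveI : FiniteDimensional K j₁.fieldRange :=
    (AlgEquiv.ofInjectiveField j₁).toLinearEquiv.finiteDimensional
  haveI : FiniteDimensional K j₂.fieldRange :=
    (AlgEquiv.ofInjectiveField j₂).toLinearEquiv.finiteDimensional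
  haveI : Normal K j₁.fieldRange := Normal.of_algEquiv (AlgEquiv.ofInjectiveField j₁)
  haveI : Normal K j₂.fieldRange := Normal.of_algEquiv (AlgEquiv.ofInjectiveField j₂)
  let M₃ : IntermediateField K (AlgebraicClosure M₁) := j₁.fieldRange ⊔ j₂.fieldRange
  haveI : FiniteDimensional K M₃ := IntermediateField.finiteDimensional_sup _ _
  haveI : Normal K M₃ :=
    show Normal K ↥(j₁.fieldRange ⊔ j₂.fieldRange) from inferInstance
  haveI : IsGalois K M₃ := ⟨⟩
  have h₁ : ∀ x, j₁ x ∈ M₃ := fun x =>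
    (le_sup_left : j₁.fieldRange ≤ M₃) ⟨x, rfl⟩
  have h₂ : ∀ x, j₂ x ∈ M₃ := fun x =>
    (le_sup_right : j₂.fieldRange ≤ M₃) ⟨x, rfl⟩
  refine ⟨M₃, inferInstance, inferInstance, inferInstance, inferInstance,
    algHomCodRestrict j₁ M₃ h₁, algHomCodRestrict j₂ M₃ h₂, ?_⟩
  ext x
  exact congrArg (fun f => f x) hcomm

end Amalgam

end Fermat.Agent.S55.L.Inv481
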