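import Mathlib

/-!
# S55 / layer L / leaf L-C2 (helper481): subgroups of a finite cyclic group

Two injective homomorphisms from groups of order `n` into a finite cyclic group have the same
range (the `n`-torsion subgroup).
-/

set_option autoImplicit false
set_option linter.style.haveILetI false

namespace Fermat.Agent.S55.L.Inv481

section Cyclic

variable {G H : Type} [AddCommGroup G] [AddCommGroup H]

/-- the range of an injective homomorphism from a group of order `n` into a finite cyclic group
is the `n`-torsion subgroup -/
theorem range_eq_torsion_of_cyclic (n N : ℕ) (hn : 0 < n) [NeZero N] (eG : G ≃+ ZMod N)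
    (eH : H ≃+ ZMod n) (f : H →+ G) (hf : Function.Injective f) :
    f.range = (nsmulAddMonoidHom n : G →+ G).ker := by
  haveI : NeZero n := ⟨hn.ne'⟩
  haveI : Finite G := Finite.of_equiv _ eG.symm.toEquiv
  haveI : Finite H := Finite.of_equiv _ eH.symm.toEquiv
  haveI : IsAddCyclic G := isAddCyclic_of_surjective eG.symm.toAddMonoidHom eG.symm.surjective
  have hcardH : Nat.card H = n := by
    rw [Nat.card_congr eH.toEquiv, Nat.card_eq_fintype_card, ZMod.card]
  have hle : f.range ≤ (nsmulAddMonoidHom n : G →+ G).ker := by
    rintro _ ⟨h, rfl⟩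
    rw [AddMonoidHom.mem_ker]
    change n • f h = 0
    rw [← map_nsmul]
    have : n • h = 0 := by
      rw [← hcardH]
      exact card_nsmul_eq_zero'
    rw [this, map_zero]
  apply AddSubgroup.eq_of_le_of_card_ge hle
  have h1 : Nat.card f.range = n := by
    rw [← hcardH]
    exact Nat.card_congr (AddMonoidHom.ofInjective hf).symm.toEquiv
  rw [h1]
  classical
  letI : Fintype G := Fintype.ofFinite G
  have h2 := IsAddCyclic.card_nsmul_eq_zero_le (α := G) hn
  refine le_trans (le_of_eq ?_) h2
  rw [Nat.card_eq_fintype_card, ← Fintype.card_coe]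
  apply Fintype.card_congr
  refine Equiv.subtypeEquivRight (fun z => ?_)
  simp [AddMonoidHom.mem_ker]

/-- two injective homomorphisms from groups of order `n` into a finite cyclic group have the
same range -/
theorem range_eq_range_of_cyclic {H' : Type} [AddCommGroup H'] (n N : ℕ) (hn : 0 < n)
    [NeZero N] (eG : G ≃+ ZMod N) (eH : H ≃+ ZMod n) (eH' : H' ≃+ ZMod n)
    (f : H →+ G) (hf : Function.Injective f) (f' : H' →+ G) (hf' : Function.Injective f') :
    f.range = f'.range := by
  rw [range_eq_torsion_of_cyclic n N hn eG eH f hf,
    range_eq_torsion_of_cyclic n N hn eG eH' f' hf']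

end Cyclic

end Fermat.Agent.S55.L.Inv481
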