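import Fermat.Agent.S55.L.Inv481.Amalgam
import Fermat.Agent.S55.L.Inv481.Cyclic

/-!
# S55 / layer L / leaf L-C2 (helper481): data computing the invariant

A *datum* for `(K, L)` is a finite Galois extension `M/K` receiving `L` and an unramified
extension `E/K`.  If `infl_L x = infl_E y` in `H²(M/K)` we want `inv x := inv_E y`.  This file
proves existence of data computing every class (`exists_good`) and independence of the datum
(`unr_inv_eq`).
-/

set_option autoImplicit false
set_option linter.style.haveILetI false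

namespace Fermat.Agent.S55.L.Inv481

open groupCohomology

section FieldRange

variable {K E M : Type} [Field K] [Field E] [Field M] [Algebra K E] [Algebra K M]

/-- the isomorphism of a field onto the range of an embedding, as an intermediate field -/
noncomputable def equivFieldRange (g : E →ₐ[K] M) : E ≃ₐ[K] g.fieldRange :=
  AlgEquiv.ofBijective (algHomCodRestrict g g.fieldRange (fun x => ⟨x, rfl⟩))
    ⟨fun _ _ h => g.injective (congrArg Subtype.val h), fun ⟨_, x, hx⟩ => ⟨x, Subtype.ext hx⟩⟩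

theorem isUnramifiedExt_fieldRange (g : E →ₐ[K] M) (hu : IsUnramifiedExt K E) :
    IsUnramifiedExt K g.fieldRange :=
  isUnramifiedExt_of_algEquiv (equivFieldRange g) hu

theorem finrank_fieldRange (g : E →ₐ[K] M) :
    Module.finrank K g.fieldRange = Module.finrank K E :=
  (equivFieldRange g).toLinearEquiv.finrank_eq.symm

end FieldRange

section UnrEmb

variable (U : UnrInvFamily)

/-- the unramified invariants are compatible with embeddings of unramified extensions -/
theorem unr_inv_emb {K E₁ E₃ : Type} [Field K] [Field E₁] [Field E₃] [Algebra K E₁]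
    [Algebra K E₃] [FiniteDimensional K E₁] [FiniteDimensional K E₃] [IsGalois K E₁]
    [IsGalois K E₃] [IsLocalFld K] (hu₁ : IsUnramifiedExt K E₁) (hu₃ : IsUnramifiedExt K E₃)
    (c : E₁ →ₐ[K] E₃) (y : H2 (unitsRep K E₁)) :
    U.inv K E₃ ((embPair c).pull y) = U.inv K E₁ y := by
  letI : Algebra E₁ E₃ := c.toRingHom.toAlgebra
  haveI : IsScalarTower K E₁ E₃ :=
    IsScalarTower.of_algebraMap_eq (fun x => (c.commutes x).symm)
  obtain ⟨f, rfl⟩ := exists_cls_eq y
  have h := U.inv_baseChange K K E₁ E₃ hu₁ hu₃ f ((bcPair K K E₁ E₃).pullCocycle f)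
    ((isBaseChange_iff_isPull _ _).mpr (GalPair.isPull_pullCocycle _ _))
  rw [Module.finrank_self, one_smul, ← GalPair.pull_cls] at h
  rw [← h]
  exact congrArg _ (GalPair.pull_eq_of_ι_eq rfl _)

end UnrEmb

section LemmaW

variable (U : UnrInvFamily) (hEx : UnramifiedExistsSpec) (hCyc : UnramifiedCyclicSpec)
  (hNest : UnrNestSpec)

include hEx hCyc hNest in
/-- **Independence of the datum.** -/
theorem unr_inv_eq {K L : Type} [Field K] [Field L] [Algebra K L] [Normal K L] [IsLocalFld K]
    {M₁ E₁ M₂ E₂ : Type} [Field M₁] [Field E₁] [Field M₂] [Field E₂]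
    [Algebra K M₁] [Algebra K E₁] [Algebra K M₂] [Algebra K E₂]
    [FiniteDimensional K M₁] [IsGalois K M₁] [FiniteDimensional K E₁] [IsGalois K E₁]
    [FiniteDimensional K M₂] [IsGalois K M₂] [FiniteDimensional K E₂] [IsGalois K E₂]
    (hu₁ : IsUnramifiedExt K E₁) (hu₂ : IsUnramifiedExt K E₂)
    (a₁ : L →ₐ[K] M₁) (b₁ : E₁ →ₐ[K] M₁) (a₂ : L →ₐ[K] M₂) (b₂ : E₂ →ₐ[K] M₂)
    (x : H2 (unitsRep K L)) (y₁ : H2 (unitsRep K E₁)) (y₂ : H2 (unitsRep K E₂))
    (h₁ : (embPair b₁).pull y₁ = (embPair a₁).pull x)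
    (h₂ : (embPair b₂).pull y₂ = (embPair a₂).pull x) :
    U.inv K E₁ y₁ = U.inv K E₂ y₂ := by
  haveI : CharZero K := IsLocalFld.charZero
  -- amalgamate `M₁`, `M₂` over `L`
  obtain ⟨M₃, fM₃, aM₃, fdM₃, gM₃, j₁, j₂, hj⟩ := exists_amalgam K L M₁ M₂ a₁ a₂
  -- a big unramified extension
  have hm : 0 < Module.finrank K E₁ * Module.finrank K E₂ :=
    Nat.mul_pos Module.finrank_pos Module.finrank_pos
  obtain ⟨E₃, fE₃, aE₃, fdE₃, hu₃, hdeg₃⟩ := hEx K _ hm
  haveI gE₃ : IsGalois K E₃ := (hCyc K E₃ hu₃).1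
  -- amalgamate `M₃`, `E₃` over `K`
  obtain ⟨M₄, fM₄, aM₄, fdM₄, gM₄, k₃, k, -⟩ :=
    exists_amalgam K K M₃ E₃ (Algebra.ofId K M₃) (Algebra.ofId K E₃)
  -- the images of `E₁`, `E₂` lie in the image of `E₃`
  have hle₁ : (k₃.comp (j₁.comp b₁)).fieldRange ≤ k.fieldRange := by
    apply hNest K M₄ _ _ (isUnramifiedExt_fieldRange _ hu₁) (isUnramifiedExt_fieldRange _ hu₃)
    rw [finrank_fieldRange, finrank_fieldRange, hdeg₃]
    exact dvd_mul_right _ _
  have hle₂ : (k₃.comp (j₂.comp b₂)).fieldRange ≤ k.fieldRange := by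
    apply hNest K M₄ _ _ (isUnramifiedExt_fieldRange _ hu₂) (isUnramifiedExt_fieldRange _ hu₃)
    rw [finrank_fieldRange, finrank_fieldRange, hdeg₃]
    exact dvd_mul_left _ _
  obtain ⟨c₁, hc₁⟩ := exists_factor k _ hle₁
  obtain ⟨c₂, hc₂⟩ := exists_factor k _ hle₂
  rw [← unr_inv_emb U hu₁ hu₃ c₁ y₁, ← unr_inv_emb U hu₂ hu₃ c₂ y₂]
  congr 1
  apply embPair_pull_injective k
  have e₁ : (embPair k).pull ((embPair c₁).pull y₁) =
      (embPair (k₃.comp j₁)).pull ((embPair a₁).pull x) := by
    rw [← embPair_pull_comp, hc₁, ← AlgHom.comp_assoc, embPair_pull_comp b₁, h₁]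
  have e₂ : (embPair k).pull ((embPair c₂).pull y₂) =
      (embPair (k₃.comp j₂)).pull ((embPair a₂).pull x) := by
    rw [← embPair_pull_comp, hc₂, ← AlgHom.comp_assoc, embPair_pull_comp b₂, h₂]
  rw [e₁, e₂, ← embPair_pull_comp, ← embPair_pull_comp, AlgHom.comp_assoc, AlgHom.comp_assoc,
    hj]

end LemmaW

section DatumDef

/-- A datum for `(K, L)`: a finite Galois extension `M/K` receiving `L` and an unramified
extension `E/K` (finite, Galois). -/
structure Datum (K L : Type) [Field K] [Field L] [Algebra K L] where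
  /-- the big Galois extension -/
  M : Type
  /-- the unramified extension -/
  E : Type
  [fieldM : Field M]
  [fieldE : Field E]
  [algM : Algebra K M]
  [algE : Algebra K E]
  [fdM : FiniteDimensional K M]
  [galM : IsGalois K M]
  [fdE : FiniteDimensional K E]
  [galE : IsGalois K E]
  /-- `E/K` is unramified -/
  unr : IsUnramifiedExt K E
  /-- the embedding of `L` -/
  jL : L →ₐ[K] M
  /-- the embedding of `E` -/
  jE : E →ₐ[K] M

attribute [instance] Datum.fieldM Datum.fieldE Datum.algM Datum.algE Datum.fdM Datum.galM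
  Datum.fdE Datum.galE

variable {K L : Type} [Field K] [Field L] [Algebra K L] [Normal K L]

/-- A datum is good if every class of `H²(L/K)` becomes unramified (comes from `E`) in `M`. -/
def Datum.Good (D : Datum K L) : Prop :=
  (embPair D.jL).pull.range ≤ (embPair D.jE).pull.range

/-- the comparison map `H²(L/K) → H²(E/K)` of a good datum -/
noncomputable def Datum.phi (D : Datum K L) (hD : D.Good) :
    H2 (unitsRep K L) →+ H2 (unitsRep K D.E) :=
  (AddMonoidHom.ofInjective (embPair_pull_injective D.jE)).symm.toAddMonoidHom.comp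
    ((embPair D.jL).pull.codRestrict (embPair D.jE).pull.range (fun x => hD ⟨x, rfl⟩))

theorem Datum.phi_spec (D : Datum K L) (hD : D.Good) (x : H2 (unitsRep K L)) :
    (embPair D.jE).pull (D.phi hD x) = (embPair D.jL).pull x :=
  AddMonoidHom.apply_ofInjective_symm (embPair_pull_injective D.jE) _

theorem Datum.phi_injective (D : Datum K L) (hD : D.Good) : Function.Injective (D.phi hD) := by
  intro x x' h
  apply embPair_pull_injective D.jL
  rw [← D.phi_spec hD x, ← D.phi_spec hD x', h]

end DatumDef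

section Exists

variable (hEx : UnramifiedExistsSpec) (hCyc : UnramifiedCyclicSpec) (hH2 : H2CyclicSpec)

include hEx hCyc hH2 in
/-- **Every class becomes unramified**: good data exist. -/
theorem exists_good (K L : Type) [Field K] [Field L] [Algebra K L] [FiniteDimensional K L]
    [IsGalois K L] [IsLocalFld K] : ∃ D : Datum K L, D.Good := by
  haveI : CharZero K := IsLocalFld.charZero
  have hn : 0 < Module.finrank K L := Module.finrank_pos
  obtain ⟨E, fE, aE, fdE, hu, hdeg⟩ := hEx K _ hn
  haveI gE : IsGalois K E := (hCyc K E hu).1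
  obtain ⟨M, fM, aM, fdM, gM, jL, jE, -⟩ :=
    exists_amalgam K K L E (Algebra.ofId K L) (Algebra.ofId K E)
  refine ⟨{ M := M, E := E, unr := hu, jL := jL, jE := jE }, ?_⟩
  obtain ⟨eM⟩ := hH2 K M
  obtain ⟨eL⟩ := hH2 K L
  obtain ⟨eE⟩ := hH2 K E
  rw [hdeg] at eE
  haveI : NeZero (Module.finrank K M) := ⟨(Module.finrank_pos (R := K) (M := M)).ne'⟩
  exact (range_eq_range_of_cyclic (Module.finrank K L) (Module.finrank K M) hn eM eL eE
    (embPair jL).pull (embPair_pull_injective jL) (embPair jE).pull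
    (embPair_pull_injective jE)).le

end Exists

end Fermat.Agent.S55.L.Inv481
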