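import Fermat.Agent.S55.L.Inv481.Transport

/-!
# S55 / layer L / leaf L-C2 (helper481): pairs attached to embeddings

For a `K`-algebra homomorphism `j : A →ₐ[K] B` of fields with `A/K` normal we get the pair
`embPair j : (K, A) → (K, B)` (restriction of automorphisms along `j`).  Its pull-back on `H²`
is the inflation along `j`; it is injective when `B/K` is finite Galois.
-/

set_option autoImplicit false
set_option linter.style.haveILetI false

namespace Fermat.Agent.S55.L.Inv481

open groupCohomology

section PullLemmas

variable {K L K' L' K'' L'' : Type} [Field K] [Field L] [Algebra K L] [Field K'] [Field L']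
  [Algebra K' L'] [Field K''] [Field L''] [Algebra K'' L'']

theorem GalPair.pull_eq_of_ι_eq {P Q : GalPair K L K' L'} (h : P.ι = Q.ι)
    (x : H2 (unitsRep K L)) : P.pull x = Q.pull x := by
  rw [GalPair.pull_congr h]

/-- a composite of pull-backs is the pull-back along any pair with the composite ring
homomorphism -/
theorem GalPair.pull_pull (P : GalPair K L K' L') (Q : GalPair K' L' K'' L'')
    (R : GalPair K L K'' L'') (h : R.ι = Q.ι.comp P.ι) (x : H2 (unitsRep K L)) :
    Q.pull (P.pull x) = R.pull x := by
  rw [← GalPair.pull_comp]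
  exact GalPair.pull_eq_of_ι_eq h.symm x

end PullLemmas

section Emb

variable {K A B C : Type} [Field K] [Field A] [Field B] [Field C] [Algebra K A] [Algebra K B]
  [Algebra K C]

/-- The pair `(K, A) → (K, B)` of an embedding `j : A →ₐ[K] B`, `A/K` normal. -/
noncomputable def embPair [Normal K A] (j : A →ₐ[K] B) : GalPair K A K B :=
  letI : Algebra A B := j.toRingHom.toAlgebra
  haveI : IsScalarTower K A B := IsScalarTower.of_algebraMap_eq (fun x => (j.commutes x).symm)
  inflPair K A B

@[simp] theorem embPair_ι [Normal K A] (j : A →ₐ[K] B) : (embPair j).ι = (j : A →+* B) := rfl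

theorem embPair_comp [Normal K A] [Normal K B] (j : A →ₐ[K] B) (k : B →ₐ[K] C) :
    embPair (k.comp j) = (embPair j).comp (embPair k) :=
  GalPair.ext' rfl

theorem embPair_pull_comp [Normal K A] [Normal K B] (j : A →ₐ[K] B) (k : B →ₐ[K] C)
    (x : H2 (unitsRep K A)) :
    (embPair (k.comp j)).pull x = (embPair k).pull ((embPair j).pull x) := by
  rw [embPair_comp, GalPair.pull_comp]

theorem embPair_pull_injective [Normal K A] [FiniteDimensional K B] [IsGalois K B]
    (j : A →ₐ[K] B) : Function.Injective (embPair j).pull := by
  letI : Algebra A B := j.toRingHom.toAlgebra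
  haveI : IsScalarTower K A B := IsScalarTower.of_algebraMap_eq (fun x => (j.commutes x).symm)
  exact inflPair_pull_injective K A B

theorem inflPair_eq_embPair [Algebra A B] [IsScalarTower K A B] [Normal K A] :
    inflPair K A B = embPair (IsScalarTower.toAlgHom K A B) :=
  GalPair.ext' rfl

theorem embPair_id_pull [Normal K A] (x : H2 (unitsRep K A)) :
    (embPair (AlgHom.id K A)).pull x = x :=
  GalPair.pull_eq_self_of_ι_eq_id _ rfl x

end Emb

section BaseIso

variable {K K' M : Type} [Field K] [Field K'] [Field M] [Algebra K M] [Algebra K' M]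

/-- Change of the base field along an isomorphism `K ≃ K'` compatible with the algebra maps:
the Galois groups are the same. -/
noncomputable def autCongrBase (e₀ : K ≃+* K')
    (h : ∀ a, algebraMap K' M (e₀ a) = algebraMap K M a) : (M ≃ₐ[K] M) ≃* (M ≃ₐ[K'] M) where
  toFun g :=
    { g.toRingEquiv with
      commutes' := fun a' => by
        obtain ⟨a, rfl⟩ := e₀.surjective a'
        rw [h]
        exact g.commutes a }
  invFun g :=
    { g.toRingEquiv with
      commutes' := fun a => by
        rw [← h]
        exact g.commutes (e₀ a) }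
  left_inv g := by ext x; rfl
  right_inv g := by ext x; rfl
  map_mul' g g' := by ext x; rfl

@[simp] theorem autCongrBase_apply (e₀ : K ≃+* K')
    (h : ∀ a, algebraMap K' M (e₀ a) = algebraMap K M a) (g : M ≃ₐ[K] M) (x : M) :
    autCongrBase e₀ h g x = g x := rfl

/-- The pair `(K, M) → (K', M)` of a change of base field along an isomorphism. -/
noncomputable def basePair (e₀ : K ≃+* K')
    (h : ∀ a, algebraMap K' M (e₀ a) = algebraMap K M a) : GalPair K M K' M :=
  transPair (RingEquiv.refl M) (autCongrBase e₀ h) (fun _ _ => rfl)

@[simp] theorem basePair_ι (e₀ : K ≃+* K')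
    (h : ∀ a, algebraMap K' M (e₀ a) = algebraMap K M a) :
    (basePair e₀ h).ι = RingHom.id M := rfl

end BaseIso

end Fermat.Agent.S55.L.Inv481
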