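import Fermat.Agent.S55.L.SpecInv

/-!
# S55 / layer L / leaf L-C2 (helper481): compatible pairs and pull-backs on `H²(Gal(L/K), Lˣ)`

A *Galois pair morphism* `(K, L) → (K', L')` is a ring homomorphism `ι : L →+* L'` together with a
group homomorphism `f : Gal(L'/K') →* Gal(L/K)` such that `ι (f g x) = g (ι x)`.  It induces
`pull : H²(Gal(L/K), Lˣ) →+ H²(Gal(L'/K'), L'ˣ)`.  Inflation, restriction and transport are
special cases.
-/

set_option autoImplicit false

namespace Fermat.Agent.S55.L.Inv481

open groupCohomology CategoryTheory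

/-- A morphism of Galois pairs `(K, L) → (K', L')`. -/
structure GalPair (K L K' L' : Type) [Field K] [Field L] [Algebra K L] [Field K'] [Field L']
    [Algebra K' L'] where
  /-- the ring homomorphism on the top fields -/
  ι : L →+* L'
  /-- the group homomorphism on the Galois groups -/
  f : (L' ≃ₐ[K'] L') →* (L ≃ₐ[K] L)
  /-- compatibility -/
  comm : ∀ (g : L' ≃ₐ[K'] L') (x : L), ι (f g x) = g (ι x)

variable {K L K' L' : Type} [Field K] [Field L] [Algebra K L] [Field K'] [Field L']
  [Algebra K' L']

namespace GalPair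

/-- A pair is determined by its ring homomorphism. -/
theorem f_eq_of_ι_eq {P Q : GalPair K L K' L'} (h : P.ι = Q.ι) : P.f = Q.f := by
  ext g x
  apply P.ι.injective
  rw [P.comm, h, Q.comm]

@[ext]
theorem ext' {P Q : GalPair K L K' L'} (h : P.ι = Q.ι) : P = Q := by
  have hf := f_eq_of_ι_eq h
  cases P; cases Q
  simp only at h hf
  subst h; subst hf
  rfl

/-- The map on units, additively. -/
noncomputable def unitsMap (P : GalPair K L K' L') : Additive Lˣ →+ Additive L'ˣ :=
  MonoidHom.toAdditive (Units.map (P.ι : L →* L'))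

@[simp] theorem unitsMap_apply (P : GalPair K L K' L') (x : Additive Lˣ) :
    P.unitsMap x = Additive.ofMul (Units.map (P.ι : L →* L') (Additive.toMul x)) := rfl

/-- The morphism of representations induced by a pair. -/
noncomputable def repHom (P : GalPair K L K' L') :
    Rep.res P.f (unitsRep K L) ⟶ unitsRep K' L' :=
  Rep.ofHom
    (LinearMap.intertwiningMap_of_isIntertwiningMap _ _ P.unitsMap.toIntLinearMap (by
        intro g v
        apply Additive.toMul.injective
        apply Units.ext
        exact P.comm g _))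

/-- The pull-back on `H²`. -/
noncomputable def pull (P : GalPair K L K' L') :
    H2 (unitsRep K L) →+ H2 (unitsRep K' L') :=
  (groupCohomology.map P.f P.repHom 2).hom.toAddMonoidHom

/-- `f'` is the pull-back of the cocycle `f` along `P`. -/
def IsPull (P : GalPair K L K' L') (c : cocycles₂ (unitsRep K L))
    (c' : cocycles₂ (unitsRep K' L')) : Prop :=
  ∀ g h : L' ≃ₐ[K'] L',
    (c' : (L' ≃ₐ[K'] L') × (L' ≃ₐ[K'] L') → unitsRep K' L') (g, h) =
      Additive.ofMul (Units.map (P.ι : L →* L')
        (Additive.toMul ((c : (L ≃ₐ[K] L) × (L ≃ₐ[K] L) → unitsRep K L) (P.f g, P.f h))))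

/-- The pull-back of a cocycle. -/
noncomputable def pullCocycle (P : GalPair K L K' L') (c : cocycles₂ (unitsRep K L)) :
    cocycles₂ (unitsRep K' L') :=
  (mapCocycles₂ P.f P.repHom).hom c

theorem isPull_pullCocycle (P : GalPair K L K' L') (c : cocycles₂ (unitsRep K L)) :
    P.IsPull c (P.pullCocycle c) := by
  intro g h
  rfl

theorem pull_cls (P : GalPair K L K' L') (c : cocycles₂ (unitsRep K L)) :
    P.pull (cls c) = cls (P.pullCocycle c) := by
  have := H2π_comp_map_apply P.f P.repHom c
  exact this

theorem IsPull.eq_pullCocycle {P : GalPair K L K' L'} {c : cocycles₂ (unitsRep K L)}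
    {c' : cocycles₂ (unitsRep K' L')} (h : P.IsPull c c') : c' = P.pullCocycle c := by
  apply cocycles₂_ext
  intro g k
  rw [h g k]
  rfl

theorem IsPull.pull_cls {P : GalPair K L K' L'} {c : cocycles₂ (unitsRep K L)}
    {c' : cocycles₂ (unitsRep K' L')} (h : P.IsPull c c') : P.pull (cls c) = cls c' := by
  rw [h.eq_pullCocycle, GalPair.pull_cls]

end GalPair

end Fermat.Agent.S55.L.Inv481

namespace Fermat.Agent.S55.L.Inv481

open groupCohomology CategoryTheory

section Comp

variable {K L K' L' K'' L'' : Type} [Field K] [Field L] [Algebra K L] [Field K'] [Field L']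
  [Algebra K' L'] [Field K''] [Field L''] [Algebra K'' L'']

/-- every class is the class of a cocycle -/
theorem exists_cls_eq (x : H2 (unitsRep K L)) : ∃ c : cocycles₂ (unitsRep K L), cls c = x := by
  induction x using H2_induction_on with | @h c =>
  exact ⟨c, rfl⟩

/-- Composition of pairs. -/
def GalPair.comp (P : GalPair K L K' L') (Q : GalPair K' L' K'' L'') : GalPair K L K'' L'' where
  ι := Q.ι.comp P.ι
  f := P.f.comp Q.f
  comm g x := by
    simp only [RingHom.comp_apply, MonoidHom.comp_apply]
    rw [P.comm, Q.comm]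

@[simp] theorem GalPair.comp_ι (P : GalPair K L K' L') (Q : GalPair K' L' K'' L'') :
    (P.comp Q).ι = Q.ι.comp P.ι := rfl

@[simp] theorem GalPair.comp_f (P : GalPair K L K' L') (Q : GalPair K' L' K'' L'') :
    (P.comp Q).f = P.f.comp Q.f := rfl

theorem GalPair.pull_comp (P : GalPair K L K' L') (Q : GalPair K' L' K'' L'')
    (x : H2 (unitsRep K L)) : (P.comp Q).pull x = Q.pull (P.pull x) := by
  obtain ⟨c, rfl⟩ := exists_cls_eq x
  rw [GalPair.pull_cls, GalPair.pull_cls, GalPair.pull_cls]
  congr 1

/-- if two pairs have the same ring homomorphism, they have the same pull-back -/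
theorem GalPair.pull_congr {P Q : GalPair K L K' L'} (h : P.ι = Q.ι) : P.pull = Q.pull := by
  rw [GalPair.ext' h]

/-- The identity pair. -/
def GalPair.id (K L : Type) [Field K] [Field L] [Algebra K L] : GalPair K L K L where
  ι := RingHom.id L
  f := MonoidHom.id _
  comm _ _ := rfl

theorem GalPair.pull_id (x : H2 (unitsRep K L)) : (GalPair.id K L).pull x = x := by
  obtain ⟨c, rfl⟩ := exists_cls_eq x
  rw [GalPair.pull_cls]
  congr 1

theorem GalPair.pull_eq_self_of_ι_eq_id (P : GalPair K L K L) (h : P.ι = RingHom.id L)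
    (x : H2 (unitsRep K L)) : P.pull x = x := by
  have : P = GalPair.id K L := GalPair.ext' h
  rw [this, GalPair.pull_id]

end Comp

end Fermat.Agent.S55.L.Inv481
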