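import Fermat.Agent.S55.L.Inv481.Inputs

/-!
# S55 / layer L / leaf L-C2 (helper481): transport of local-field structure along isomorphisms

`IsLocalRingOfIntegers`, `IsUniformizer`, `IsUnramifiedExt` are invariant under compatible ring
isomorphisms.
-/

set_option autoImplicit false
set_option linter.style.haveILetI false

namespace Fermat.Agent.S55.L.Inv481

section Transport

variable {K K' : Type} [Field K] [Field K']

/-- the ring isomorphism between the preimage of a valuation subring under a ring isomorphism
and the valuation subring -/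
noncomputable def comapEquiv (e : K' ≃+* K) (A : ValuationSubring K) :
    A.comap (e : K' →+* K) ≃+* A where
  toFun x := ⟨e x, x.2⟩
  invFun y := ⟨e.symm y, by
    rw [ValuationSubring.mem_comap]
    change e (e.symm y) ∈ A
    rw [e.apply_symm_apply]
    exact y.2⟩
  left_inv x := Subtype.ext (e.symm_apply_apply _)
  right_inv y := Subtype.ext (e.apply_symm_apply _)
  map_mul' x y := Subtype.ext (map_mul e _ _)
  map_add' x y := Subtype.ext (map_add e _ _)

@[simp] theorem comapEquiv_apply_coe (e : K' ≃+* K) (A : ValuationSubring K)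
    (x : A.comap (e : K' →+* K)) : ((comapEquiv e A x : A) : K) = e x := rfl

theorem isLocalRingOfIntegers_comap (e : K' ≃+* K) {A : ValuationSubring K}
    (hA : IsLocalRingOfIntegers A) : IsLocalRingOfIntegers (A.comap (e : K' →+* K)) := by
  obtain ⟨h1, h2, h3⟩ := hA
  have hdvr : IsDiscreteValuationRing (A.comap (e : K' →+* K)) :=
    IsDiscreteValuationRing.RingEquivClass.isDiscreteValuationRing (comapEquiv e A).symm
  refine ⟨hdvr, ?_, ?_⟩
  · have hmap : (IsLocalRing.maximalIdeal A).map ((comapEquiv e A).symm) =
        IsLocalRing.maximalIdeal (A.comap (e : K' →+* K)) :=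
      IsLocalRing.map_ringEquiv_maximalIdeal _
    rw [← hmap]
    exact (IsAdicComplete.congr_ringEquiv (IsLocalRing.maximalIdeal A)
      (comapEquiv e A).symm).mpr h2
  · exact Finite.of_equiv _ (IsLocalRing.ResidueField.mapEquiv (comapEquiv e A).symm).toEquiv

theorem isUniformizer_comap (e : K' ≃+* K) {A : ValuationSubring K} {π : K}
    (hπ : IsUniformizer A π) : IsUniformizer (A.comap (e : K' →+* K)) (e.symm π) := by
  obtain ⟨h, hirr⟩ := hπ
  have hmem : e.symm π ∈ A.comap (e : K' →+* K) := by
    rw [ValuationSubring.mem_comap]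
    change e (e.symm π) ∈ A
    rw [e.apply_symm_apply]
    exact h
  refine ⟨hmem, ?_⟩
  have : (comapEquiv e A) ⟨e.symm π, hmem⟩ = ⟨π, h⟩ := Subtype.ext (e.apply_symm_apply π)
  rw [← MulEquiv.irreducible_iff (comapEquiv e A).toMulEquiv]
  change Irreducible ((comapEquiv e A) ⟨e.symm π, hmem⟩)
  rw [this]
  exact hirr

end Transport

section UnrTransport

variable {K E K' E' : Type} [Field K] [Field E] [Algebra K E] [Field K'] [Field E']
  [Algebra K' E']

/-- `IsUnramifiedExt` is invariant under compatible isomorphisms. -/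
theorem isUnramifiedExt_of_equiv (e₀ : K ≃+* K') (e : E ≃+* E')
    (h : ∀ x, e (algebraMap K E x) = algebraMap K' E' (e₀ x)) (hu : IsUnramifiedExt K E) :
    IsUnramifiedExt K' E' := by
  obtain ⟨A, B, π, hA, hB, hπA, hπB⟩ := hu
  refine ⟨A.comap (e₀.symm : K' →+* K), B.comap (e.symm : E' →+* E), e₀ π,
    isLocalRingOfIntegers_comap e₀.symm hA, isLocalRingOfIntegers_comap e.symm hB, ?_, ?_⟩
  · have := isUniformizer_comap e₀.symm hπA
    simpa using this
  · have := isUniformizer_comap e.symm hπB
    rw [← h]
    simpa using this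

/-- `IsUnramifiedExt` is invariant under `K`-algebra isomorphisms of the top field. -/
theorem isUnramifiedExt_of_algEquiv {K E E' : Type} [Field K] [Field E] [Algebra K E]
    [Field E'] [Algebra K E'] (e : E ≃ₐ[K] E') (hu : IsUnramifiedExt K E) :
    IsUnramifiedExt K E' :=
  isUnramifiedExt_of_equiv (RingEquiv.refl K) e.toRingEquiv (fun x => e.commutes x) hu

end UnrTransport

end Fermat.Agent.S55.L.Inv481
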